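/-
T1B (S44), brick CMP, input (4) `hxy` of `Cmp67.Final.cmp_of_dict` (helper76): GENERIC FORM.

`c0 : TwoChart W B0 B1 B01`; a ring `O` and fields `L`, `E`, `Ω` over `W` with
`O → E → Ω`, `L → E → Ω` (in the application: `O = O_E = intSubring p E`, `L` a number field,
`E = ℚ_p(ι L)`, `Ω = ℚ̄_p`), and `H⁰(O_{X_Ω}) = Ω`.

* `map_eq_of_map_top_eq` : if `y ∈ Pic X_O` and `xL ∈ Pic X_L` have the same image in `Pic X_Ω`,
  they already have the same image in `Pic X_E`  (EXT-INJ-FIELD, helper43's
  `Bridge43.picMap_injective_of_field`, + transitivity of base change).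
* `map_eq_of_map_top_eq'` : the same with the equality over `Ω` given through an intermediate
  level `E'` on the `L`-side (`L → E' → Ω`), the shape in which a bridge `j` defined through any
  other level produces it.
-/
import Mathlib
import Fermat.Agent.T1B.Bridge43.ExtInjField
import Fermat.Agent.T1.Red11.MapComp

set_option autoImplicit false
set_option linter.unusedSectionVars false

open TensorProduct

namespace Fermat.Agent.T1B.Cmp76

open Fermat.Agent.Jac Fermat.Agent.T1.RedIface75 Fermat.Agent.T1.Red11 Fermat.Agent.T1.Red68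
open Fermat.Agent.Jac.BaseChange75
open scoped Fermat.Agent.Jac.BaseChange75

universe u

variable {W B0 B1 B01 : Type u} [CommRing W] [CommRing B0] [CommRing B1] [CommRing B01]
  [Algebra W B0] [Algebra W B1] [Algebra W B01] [Algebra B0 B01] [Algebra B1 B01]
  [IsScalarTower W B0 B01] [IsScalarTower W B1 B01]
  (c0 : TwoChart W B0 B1 B01)

section Generic

variable (O L E Ω : Type u) [CommRing O] [Field L] [Field E] [Field Ω]
  [Algebra W O] [Algebra W L] [Algebra W E] [Algebra W Ω]
  [Algebra O E] [IsScalarTower W O E] [Algebra L E] [IsScalarTower W L E]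
  [Algebra E Ω] [IsScalarTower W E Ω]
  [Algebra O Ω] [IsScalarTower W O Ω] [IsScalarTower O E Ω]
  [Algebra L Ω] [IsScalarTower W L Ω] [IsScalarTower L E Ω]

/-- **`hxy` from equality at the top**: two classes over `O` and over `L` with the same image in
`Pic X_Ω` have the same image in `Pic X_E`. -/
theorem map_eq_of_map_top_eq [Nontrivial (Ω ⊗[W] B0)] (hH0 : H0Const (c0.baseChange Ω))
    {y : PicX c0 O} {xL : PicX c0 L} (h : PicX.map c0 O Ω y = PicX.map c0 L Ω xL) :
    PicX.map c0 O E y = PicX.map c0 L E xL := by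
  apply Fermat.Agent.T1B.Bridge43.picMap_injective_of_field c0 E Ω hH0
  rw [PicX.map_comp c0 O E Ω y, PicX.map_comp c0 L E Ω xL]
  exact h

end Generic

end Fermat.Agent.T1B.Cmp76
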