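/-
T1B (S44), brick CMP, input (4) `hxy` of `Cmp67.Final.cmp_of_dict` + the standing hypothesis
`hinjE` (EXT-INJ-FIELD) of `ADPe93` / `Toric50.UnionFields` (helper76): UNION VOCABULARY.

Levels: helper66's `Local66.Union.NLevel p K` (`PicO`, `PicE`, `PicTop`, `bcO`, `bcE`, `bcOE`), number
field side: helper93's `ADPe93.Inst` (`PicL c0 E = Pic X_L`, `toEh c0 E : Pic X_L →* Pic X_{E_L}`).

* `nontrivial_tensor`        : `Ω ⊗[W] B0` is nontrivial (`B0 ≠ 0` flat, `W → Ω` injective);
* `injective_bcE`            : **`hinjE`**: `Pic X_{E} → Pic X_{ℚ̄_p}` is injective for every level `E`,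
                               from `H⁰(O_{X_{ℚ̄_p}}) = ℚ̄_p` (helper43's EXT-INJ-FIELD);
* `bcOE_eq_of_bcO_eq`        : `bcO c0 E y = j x = bcE c0 E z  ⇒  bcOE c0 E y = z`;
* `Completion.bcOE_eq_toE`   : the same for a bridge `j` with a `ADPe93.Completion D j`;
* `hxy_of_bcO_eq`            : **`hxy`** in the shape `PicX.map c0 O_E E ↑y = PicX.map c0 L E xL`
                               (`L = E.L` the number field of the level, `xL : Pic X_L`) consumed by
                               `Cmp67.Final.cmp_of_dict` / `Cmp67.Assemble.cmp_of_map_eq`.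
-/
import Mathlib
import Fermat.Agent.T1B.Cmp76.MapEq
import Fermat.Agent.T1B.ADPe93.Inst

set_option autoImplicit false
set_option linter.unusedSectionVars false
set_option linter.style.haveILetI false
set_option synthInstance.maxHeartbeats 400000
set_option maxHeartbeats 1000000

open TensorProduct

noncomputable section

namespace Fermat.Agent.T1B.Cmp76

open Fermat.Agent.TW.B5.Iface Fermat.Agent.RED.Interface4 Fermat.Agent.T1.HubInst98
open Fermat.Agent.T1.IntSub47 Fermat.Agent.Jac Fermat.Agent.T1.RedIface75 Fermat.Agent.T1.Red11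
open Fermat.Agent.T1.Red68
open Fermat.Agent.T1B.Local66.LocalBase Fermat.Agent.T1B.Local66.Union
open Fermat.Agent.T1B.AD74.J0a Fermat.Agent.T1B.AD69.Concrete
open Fermat.Agent.T1B.ADPe93 Fermat.Agent.T1B.ADPe93.Inst
open Fermat.Agent.Jac.BaseChange75
open scoped Fermat.Agent.Jac.BaseChange75

/-- `Ω ⊗[W] B` is nontrivial for a nontrivial flat `W`-algebra `B` and `W → Ω` injective. -/
theorem nontrivial_tensor {W Ω B : Type*} [CommRing W] [CommRing Ω] [CommRing B] [Algebra W Ω]
    [Algebra W B] [Module.Flat W B] [Nontrivial B]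
    (hinj : Function.Injective (algebraMap W Ω)) : Nontrivial (Ω ⊗[W] B) := by
  have h := Algebra.TensorProduct.includeRight_injective (R := W) (A := Ω) (B := B) hinj
  refine ⟨⟨(1 : Ω) ⊗ₜ[W] (1 : B), (1 : Ω) ⊗ₜ[W] (0 : B), fun h' => ?_⟩⟩
  exact one_ne_zero (h h')

variable {p : ℕ} [Fact p.Prime] {K : IntermediateField ℚ Qbar}
  {B0 B1 B01 : Type} [CommRing B0] [CommRing B1] [CommRing B01]
  [Algebra (Wb p K) B0] [Algebra (Wb p K) B1] [Algebra (Wb p K) B01] [Algebra B0 B01]
  [Algebra B1 B01] [IsScalarTower (Wb p K) B0 B01] [IsScalarTower (Wb p K) B1 B01]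
  (c0 : TwoChart (Wb p K) B0 B1 B01)

/-- **EXT-INJ-FIELD on the levels (`hinjE`)**: `Pic X_E → Pic X_{ℚ̄_p}` is injective. -/
theorem injective_bcE [Module.Flat (Wb p K) B0] [Nontrivial B0]
    (hH0 : letI := algWKbar p K
      H0Const (c0.baseChange (Kbar p)))
    (E : NLevel p K) : Function.Injective (bcE c0 E) := by
  letI := algWE E.lev
  letI := algWKbar p K
  letI := algEKbar E.E
  haveI := tower_W_E_Kbar E.lev
  haveI : Nontrivial (Kbar p ⊗[Wb p K] B0) := nontrivial_tensor (iotaW_injective p K)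
  exact Fermat.Agent.T1B.Bridge43.picMap_injective_of_field c0 ↥E.E (Kbar p) hH0

/-- If `y ∈ Pic X_{O_E}` and `z ∈ Pic X_E` have the same image `j x` in `Pic X_{ℚ̄_p}`, then `z` is the
generic fibre of `y`. -/
theorem bcOE_eq_of_bcO_eq {E : NLevel p K} (hinjE : Function.Injective (bcE c0 E))
    {a : Atop p K c0} {y : PicO c0 E} {z : PicE c0 E}
    (hy : Additive.ofMul (bcO c0 E y) = a) (hz : Additive.ofMul (bcE c0 E z) = a) :
    bcOE c0 E y = z := by
  apply hinjE
  rw [bcE_bcOE]
  exact Additive.ofMul.injective (hy.trans hz.symm)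

section Completion

variable {c0}
variable {G : Type} [AddCommGroup G] {ι : Type} [Preorder ι] [IsDirected ι (· ≤ ·)] [Nonempty ι]
  {O L : ι → Type} [∀ i, CommRing (O i)] [∀ i, IsDomain (O i)]
  [∀ i, IsDiscreteValuationRing (O i)] [∀ i, Algebra (Wb p K) (O i)]
  [∀ i, CommRing (L i)] [∀ i, Algebra (Wb p K) (L i)] [∀ i, Algebra (O i) (L i)]
  [∀ i, IsScalarTower (Wb p K) (O i) (L i)]
  {D : Levels (G := G) c0 O L} {j : G →+ Atop p K c0}

/-- For a bridge `j` with completion data: a class over `Ô_i` with image `j x` has generic fibre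
`d i x` (pushed to `Ê_i`). -/
theorem Completion.bcOE_eq_toE (Cm : Completion D j)
    (hinjE : ∀ E : NLevel p K, Function.Injective (bcE c0 E)) (i : ι) (x : G)
    (y : PicO c0 (Cm.Ehat i)) (hy : Additive.ofMul (bcO c0 (Cm.Ehat i) y) = j x) :
    bcOE c0 (Cm.Ehat i) y = Cm.toE i (D.d i x) :=
  bcOE_eq_of_bcO_eq c0 (hinjE _) hy (Cm.hj i x)

end Completion

/-- **`hxy`** in the shape consumed by `Cmp67.Final.cmp_of_dict`: `O = O_E`, `E = E_L`, `L = E.L`,
`xL : Pic X_L` with `j x = bcE (toEh xL)`. -/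
theorem hxy_of_bcO_eq {E : NLevel p K} (hinjE : Function.Injective (bcE c0 E))
    {a : Atop p K c0} {y : PicO c0 E} {xL : PicL c0 E}
    (hy : Additive.ofMul (bcO c0 E y) = a)
    (hx : Additive.ofMul (bcE c0 E (toEh c0 E xL)) = a) :
    letI := algWO E.lev
    letI := algWE E.lev
    letI := algOE E.E
    haveI := tower_W_O_E E.lev
    letI := algAKL (padicPlace p) E.leL
    letI := algKE E.levL
    haveI := tower_W_L_Eh E
    PicX.map c0 ↥(intSubring p E.E) ↥E.E y = PicX.map c0 ↥E.L ↥E.E xL :=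
  bcOE_eq_of_bcO_eq c0 hinjE hy hx

end Fermat.Agent.T1B.Cmp76
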